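import Fermat.Agent.CFT.Idele.Classes

/-!
# Shortcut instances for the idele modules
-/

set_option autoImplicit false
set_option synthInstance.maxHeartbeats 200000

noncomputable section

namespace Fermat.Agent.CFT.Duality

open ExtCitation Fermat.Agent.Arith IntermediateField Fermat.Agent.CFT.Idele

variable (L : IntermediateField ℚ QBar) [FiniteDimensional ℚ L] [Normal ℚ L]

/-- Shortcut. -/
instance jAddCommGroup : AddCommGroup (J L) := inferInstance

/-- Shortcut. -/
instance cAddCommGroup : AddCommGroup (C L) := inferInstance

/-- Shortcut. -/
instance cAddZeroClass : AddZeroClass (C L) := (cAddCommGroup L).toAddGroup.toAddZeroClass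

/-- Shortcut. -/
instance cIntModule : Module ℤ (C L) := AddCommGroup.toIntModule (C L)

/-- Shortcut. -/
instance jIntModule : Module ℤ (J L) := AddCommGroup.toIntModule (J L)

end Fermat.Agent.CFT.Duality
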