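import Fermat.Agent.CFT.Idele.CoInd

/-!
# Semilocal modules: first cohomology

Shapiro's lemma for equivariant families, in degree one.
-/

set_option autoImplicit false
set_option linter.unusedSectionVars false

noncomputable section

namespace Fermat.Agent.CFT.Duality

open Fermat.Agent.CFT.Idele

variable {G T U : Type*} [Group G] [Group T] [CommGroup U] [MulDistribMulAction T U]
  {j : T →* G} {D : Subgroup U}

/-- A cocycle with values in equivariant families is a coboundary, if this holds for `D` at every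
subgroup of `T`. -/
theorem semi_h1 (H : Subgroup G) (hD : ∀ t : T, ∀ u ∈ D, t • u ∈ D)
    (h1 : ∀ (S : Subgroup T) (e : S → U), (∀ s, e s ∈ D) →
      (∀ s s' : S, e (s * s') = (s : T) • e s' * e s) →
      ∃ z ∈ D, ∀ s : S, (s : T) • z / z = e s)
    (c : H → G → U) (hc : ∀ h, SemiIn j D (c h))
    (hcoc : ∀ (h h' : H) g, c (h * h') g = c h' (g * h) * c h g) :
    ∃ y, SemiIn j D y ∧ ∀ (h : H) g, y (g * h) / y g = c h g := by
  classical
  let k : ∀ r, semiStab j H r → H := fun r s => ⟨r⁻¹ * j s * r, (mem_semiStab j H).mp s.2⟩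
  have hk : ∀ r (s : semiStab j H r), r * (k r s : G) = j s * r := fun r s => by
    simp [k, mul_assoc]
  have hz : ∀ r, ∃ z ∈ D, ∀ s : semiStab j H r, (s : T) • z / z = c (k r s) r := fun r => by
    refine h1 _ (fun s => c (k r s) r) (fun s => (hc _).mem r) fun s s' => ?_
    have hkm : k r (s * s') = k r s * k r s' := Subtype.ext (by simp [k, mul_assoc])
    show c (k r (s * s')) r = _
    rw [hkm, hcoc, hk, (hc _).equi]
  choose z hzD hz using hz
  have hs : ∀ g, ∃ th : T × H, g = j th.1 * semiRep j H g * (th.2 : G) := fun g => by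
    obtain ⟨t, h, hh, e⟩ := semiRep_spec j H g
    exact ⟨(t, ⟨h, hh⟩), e⟩
  choose th hth using hs
  let y : G → U := fun g => (th g).1 • (z (semiRep j H g) * c (th g).2 (semiRep j H g))
  have hy : ∀ g r (t : T) (h : H), semiRep j H g = r → g = j t * r * (h : G) →
      y g = t • (z r * c h r) := by
    intro g r t h hr e
    obtain ⟨e₀, hy₀⟩ : g = j (th g).1 * r * ((th g).2 : G) ∧
        y g = (th g).1 • (z r * c (th g).2 r) := by
      subst hr; exact ⟨hth g, rfl⟩
    rw [hy₀]
    generalize (th g).1 = t₀, (th g).2 = h₀ at e₀ ⊢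
    have e1 : r⁻¹ * j (t⁻¹ * t₀) * r = (h : G) * (h₀ : G)⁻¹ := by
      rw [map_mul, map_inv]
      calc r⁻¹ * ((j t)⁻¹ * j t₀) * r
          = r⁻¹ * (j t)⁻¹ * (j t₀ * r * h₀) * (h₀ : G)⁻¹ := by group
        _ = r⁻¹ * (j t)⁻¹ * (j t * r * h) * (h₀ : G)⁻¹ := by rw [← e₀, ← e]
        _ = _ := by group
    have hmem : t⁻¹ * t₀ ∈ semiStab j H r := by
      rw [mem_semiStab, e1]; exact mul_mem h.2 (inv_mem h₀.2)
    set s : semiStab j H r := ⟨t⁻¹ * t₀, hmem⟩
    have hh : h = k r s * h₀ := Subtype.ext (by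
      show (h : G) = r⁻¹ * j (t⁻¹ * t₀) * r * h₀
      rw [e1, inv_mul_cancel_right])
    calc t₀ • (z r * c h₀ r) = t • ((s : T) • (z r * c h₀ r)) := by
          rw [smul_smul]; simp [s]
      _ = _ := by
          congr 1
          rw [smul_mul', eq_mul_of_div_eq (hz r s), hh, hcoc, hk, (hc _).equi]
          ac_rfl
  refine ⟨y, ⟨fun t g => ?_, fun g => hD _ _ (mul_mem (hzD _) ((hc _).mem _))⟩, fun h g => ?_⟩
  · have hr : semiRep j H (j t * g) = semiRep j H g := by
      simpa using semiRep_mul j H t g H.one_mem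
    rw [hy _ _ (t * (th g).1) (th g).2 hr (by
      rw [map_mul]
      conv_lhs => rw [hth g]
      simp only [mul_assoc]), mul_smul]
  · have hr : semiRep j H (g * h) = semiRep j H g := by
      simpa using semiRep_mul j H (1 : T) g h.2
    rw [hy _ _ (th g).1 ((th g).2 * h) hr (by
      conv_lhs => rw [hth g]
      rw [Subgroup.coe_mul]; simp only [mul_assoc]), hcoc, div_eq_iff_eq_mul,
      show c h g = (th g).1 • c h (semiRep j H g * ((th g).2 : G)) by
        rw [← (hc h).equi, ← mul_assoc, ← hth g]]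
    show _ = _ * (th g).1 • _
    rw [← smul_mul']
    congr 1
    ac_rfl

end Fermat.Agent.CFT.Duality
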