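import Fermat.Agent.CFT.Duality.Semilocal
import Fermat.Agent.CFT.Duality.SemiH1
import Fermat.Agent.CFT.Idele.LocalTriv
import Fermat.Agent.CFT.Coh.Norms

/-!
# Unit families outside a set containing the ramified primes

They are cohomologically trivial, so equivariant maps into them are norms.
-/

set_option autoImplicit false
set_option synthInstance.maxHeartbeats 200000
set_option linter.unusedSectionVars false
set_option linter.style.haveILetI false

noncomputable section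

namespace Fermat.Agent.CFT.Duality

open ExtCitation Fermat.Agent.Arith IntermediateField Fermat.Agent.CFT.Local Fermat.Agent.CFT.Idele
open groupCohomology

local instance factPrimeUnits (q : Nat.Primes) : Fact (q : ℕ).Prime := ⟨q.2⟩

variable (L : IntermediateField ℚ QBar) [FiniteDimensional ℚ L] [Normal ℚ L] (T : Set Nat.Primes)

/-- The Galois action on unit families. -/
instance unitsOffAction : DistribMulAction (L ≃ₐ[ℚ] L) (unitsOff L T) where
  smul σ x := ⟨σ • (x : J L), smul_mem_unitsOff σ x.2⟩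
  one_smul x := Subtype.ext (one_smul _ (x : J L))
  mul_smul σ τ x := Subtype.ext (mul_smul σ τ (x : J L))
  smul_zero σ := Subtype.ext (smul_zero σ)
  smul_add σ x y := Subtype.ext (smul_add σ (x : J L) (y : J L))

variable {L T}

theorem normOK_unitGroup {q : Nat.Primes} (hq : inertia (E L q) = ⊥)
    (S : Subgroup (E L q ≃ₐ[ℚ_[(q : ℕ)]] E L q)) [Fintype S] : NormOK S (unitGroup (E L q)) := by
  obtain ⟨D, -, -, -, hD, hu⟩ := exists_trivial_units L q
  exact hu hq ▸ hD S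

theorem semiIn_val (x : J L) (hx : x ∈ unitsOff L T) (q : Nat.Primes) :
    SemiIn (toGlobal (q : ℕ) L) (unitGroup (E L q)) fun σ => val x.toMul q σ :=
  ⟨fun t σ => val_toGlobal_mul x.toMul q t σ, fun σ => (hx q σ).1⟩

open Classical in
/-- Unit families from their values. -/
def mkUnitsOff (y : ∀ q, (L ≃ₐ[ℚ] L) → (E L q)ˣ)
    (hy : ∀ q ∉ T, SemiIn (toGlobal (q : ℕ) L) (unitGroup (E L q)) (y q)) : unitsOff L T :=
  ⟨Additive.ofMul (Family.toIdl (L := L)
    { toFun := fun q σ => if q ∈ T then 1 else y q σ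
      equi := fun q t σ => by
        by_cases hq : q ∈ T
        · simp only [if_pos hq, smul_one]
        · simp only [if_neg hq, (hy q hq).equi]
      cofinite := ⟨∅, fun q _ σ => by
        split_ifs with hq <;> [exact one_mem _; exact (hy q hq).mem σ]⟩ }),
    fun q σ => by
      rw [toMul_ofMul, Family.val_toIdl]
      dsimp only
      split_ifs with hq
      · exact ⟨one_mem _, fun _ => rfl⟩
      · exact ⟨(hy q hq).mem σ, fun h => absurd h hq⟩⟩

open Classical in
theorem val_mkUnitsOff (y : ∀ q, (L ≃ₐ[ℚ] L) → (E L q)ˣ)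
    (hy : ∀ q ∉ T, SemiIn (toGlobal (q : ℕ) L) (unitGroup (E L q)) (y q)) (q : Nat.Primes)
    (σ : L ≃ₐ[ℚ] L) :
    val (mkUnitsOff y hy : J L).toMul q σ = if q ∈ T then 1 else y q σ := Family.val_toIdl _ q σ

theorem unitsOff_ext {x y : unitsOff L T}
    (h : ∀ q ∉ T, ∀ σ, val (x : J L).toMul q σ = val (y : J L).toMul q σ) : x = y :=
  Subtype.ext <| J_ext fun q σ => by
    by_cases hq : q ∈ T
    · rw [(x.2 q σ).2 hq, (y.2 q σ).2 hq]
    · exact h q hq σ

variable (hT : ∀ q ∉ T, inertia (E L q) = ⊥) (H : Subgroup (L ≃ₐ[ℚ] L))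

include hT in
theorem normSurj_unitsOff [Fintype H] : NormSurj H (unitsOff L T) := by
  classical
  intro x hx
  have hfix : ∀ q σ, ∀ h ∈ H, val (x : J L).toMul q (σ * h) = val (x : J L).toMul q σ :=
    fun q σ h hh => by rw [← val_smul_J]; exact congrArg (fun z : unitsOff L T => val (z : J L).toMul q σ) (hx ⟨h, hh⟩)
  have hy : ∀ q, ∃ y : (L ≃ₐ[ℚ] L) → (E L q)ˣ, q ∉ T →
      SemiIn (toGlobal (q : ℕ) L) (unitGroup (E L q)) y ∧
        ∀ σ, ∏ h : H, y (σ * h) = val (x : J L).toMul q σ := fun q => by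
    by_cases hq : q ∈ T
    · exact ⟨fun _ => 1, fun h => absurd hq h⟩
    obtain ⟨y, h1, h2⟩ := semi_norm_surj (H := H) (toGlobal_injective _ L)
      (fun t u hu => (smul_mem_unitGroup_iff t u).2 hu) (fun S _ => normOK_unitGroup (hT q hq) S)
      (semiIn_val _ x.2 q) (hfix q)
    exact ⟨y, fun _ => ⟨h1, h2⟩⟩
  choose y hy using hy
  refine ⟨mkUnitsOff y fun q hq => (hy q hq).1, unitsOff_ext fun q hq σ => ?_⟩
  rw [normSum, AddSubgroup.val_finsetSum, val_sum, ← (hy q hq).2 σ]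
  refine Finset.prod_congr rfl fun h _ => ?_
  show val ((h : L ≃ₐ[ℚ] L) • (mkUnitsOff y _ : J L)).toMul q σ = _
  rw [val_smul_J, val_mkUnitsOff, if_neg hq]

theorem exists_unit_of_cocycle {q : Nat.Primes} (hq : inertia (E L q) = ⊥)
    (S : Subgroup (E L q ≃ₐ[ℚ_[(q : ℕ)]] E L q)) (e : S → (E L q)ˣ)
    (he : ∀ s, e s ∈ unitGroup (E L q))
    (hee : ∀ s s' : S, e (s * s') = (s : E L q ≃ₐ[ℚ_[(q : ℕ)]] E L q) • e s' * e s) :
    ∃ z ∈ unitGroup (E L q), ∀ s : S, (s : E L q ≃ₐ[ℚ_[(q : ℕ)]] E L q) • z / z = e s := by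
  have h1 := h1Zero_unitGroup S (by rw [hq, inf_bot_eq])
  obtain ⟨β, hβ⟩ := h1 (fun s => Additive.ofMul (⟨e s, he s⟩ : unitGroup (E L q)))
    fun s s' => congrArg Additive.ofMul (Subtype.ext (hee s s'))
  exact ⟨(β.toMul : unitGroup (E L q)), β.toMul.2, fun s =>
    congrArg Subtype.val (congrArg Additive.toMul (hβ s))⟩

theorem val_toMul_sub (x y : J L) (q : Nat.Primes) (σ : L ≃ₐ[ℚ] L) :
    val (x - y).toMul q σ = val x.toMul q σ / val y.toMul q σ :=
  map_div (valHom q σ) x.toMul y.toMul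

theorem val_toMul_add (x y : J L) (q : Nat.Primes) (σ : L ≃ₐ[ℚ] L) :
    val (x + y).toMul q σ = val x.toMul q σ * val y.toMul q σ := val_mul x.toMul y.toMul q σ

include hT in
theorem h1Zero_unitsOff : H1Zero H (unitsOff L T) := by
  classical
  intro c hc
  have hcoc : ∀ (q : Nat.Primes) (h h' : H) (σ : L ≃ₐ[ℚ] L), val (c (h * h') : J L).toMul q σ =
      val (c h' : J L).toMul q (σ * h) * val (c h : J L).toMul q σ := fun q h h' σ => by
    rw [hc h h', AddSubgroup.coe_add, val_toMul_add,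
      show ((h • c h' : unitsOff L T) : J L) = (h : L ≃ₐ[ℚ] L) • (c h' : J L) from rfl,
      val_smul_J]
  have hy : ∀ q, ∃ y : (L ≃ₐ[ℚ] L) → (E L q)ˣ, q ∉ T →
      SemiIn (toGlobal (q : ℕ) L) (unitGroup (E L q)) y ∧
        ∀ (h : H) σ, y (σ * h) / y σ = val (c h : J L).toMul q σ := fun q => by
    by_cases hq : q ∈ T
    · exact ⟨fun _ => 1, fun h => absurd hq h⟩
    obtain ⟨y, h1, h2⟩ := semi_h1 (j := toGlobal (q : ℕ) L) (D := unitGroup (E L q)) H
      (fun t u hu => (smul_mem_unitGroup_iff t u).2 hu) (exists_unit_of_cocycle (hT q hq))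
      (fun h σ => val (c h : J L).toMul q σ) (fun h => semiIn_val (c h : J L) (c h).2 q)
      (hcoc q)
    exact ⟨y, fun _ => ⟨h1, h2⟩⟩
  choose y hy using hy
  refine ⟨mkUnitsOff y fun q hq => (hy q hq).1, fun h => unitsOff_ext fun q hq σ => ?_⟩
  rw [← (hy q hq).2 h σ]
  rw [AddSubgroup.coe_sub, val_toMul_sub,
    show ((h • mkUnitsOff y _ : unitsOff L T) : J L) =
      (h : L ≃ₐ[ℚ] L) • (mkUnitsOff y _ : J L) from rfl,
    val_smul_J, val_mkUnitsOff, val_mkUnitsOff, if_neg hq, if_neg hq]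

include hT in
/-- Equivariant maps into unit families are norms. -/
theorem exists_normOn_eq_of_unitsOff {p : ℕ} [Fact p.Prime] {P : Type*} [AddCommGroup P]
    [DistribMulAction (L ≃ₐ[ℚ] L) P] [Module.Free ℤ P] [Module.Finite ℤ P] {S : AddSubgroup P}
    (hS : IsStable (L ≃ₐ[ℚ] L) S) (hP : IsInduced (L ≃ₐ[ℚ] L) P) (hpS : ∀ x : P, p • x ∈ S)
    (w : S →+ J L) (hw : IsEquivariantOn hS w) (hwu : ∀ s, w s ∈ unitsOff L T) :
    ∃ φ : S →+ J L, normOn hS φ = w := by
  classical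
  obtain ⟨Q⟩ := (inferInstance : Nonempty (Sylow p (L ≃ₐ[ℚ] L)))
  letI : Fintype (Q : Subgroup (L ≃ₐ[ℚ] L)) := Fintype.ofFinite _
  obtain ⟨φ, hφ⟩ := exists_normOn_of_sylow hS Q (h1Zero_unitsOff hT _) (normSurj_unitsOff hT _)
    hP hpS (w.codRestrict (unitsOff L T) hwu) fun g s => Subtype.ext (hw g s)
  refine ⟨(unitsOff L T).subtype.comp φ, AddMonoidHom.ext fun s => ?_⟩
  have := congrArg Subtype.val (DFunLike.congr_fun hφ s)
  rw [normOn_apply, AddSubgroup.val_finsetSum] at this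
  rw [normOn_apply]
  exact this

end Fermat.Agent.CFT.Duality
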